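/-
S32lib / Chars (helper8): **enough characters.**  `B` a reduced ring, finite free over `ℤ` (the
anemic Hecke algebra), `𝒪` a domain of characteristic `0`, `T` a finite free `𝒪`-algebra generated
over `𝒪` by the image of a ring hom `π : B → T`, `Ω` an algebraically closed field containing `𝒪`.
Then `Ω ⊗[𝒪] T` is a quotient of the étale `Ω`-algebra `Ω ⊗[ℤ] B`, hence étale, and there are
`rank T` many `𝒪`-algebra homs `T → Ω` which are jointly injective.
-/
import Mathlib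
import Fermat.Agent.S31lib.LAT.Characters

set_option autoImplicit false
set_option linter.unusedSectionVars false
set_option linter.style.haveILetI false

noncomputable section

namespace Fermat.Agent.S32lib

open TensorProduct Matrix Fermat.Agent.S31lib.LAT

universe uT

section etale

variable {B : Type*} [CommRing B] [IsReduced B] [Module.Finite ℤ B]
  {𝒪 : Type*} [CommRing 𝒪] {T : Type*} [CommRing T] [Algebra 𝒪 T] [Module.Finite 𝒪 T]
  {Ω : Type*} [Field Ω] [CharZero Ω] [Algebra 𝒪 Ω]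

/-- `Ω ⊗[ℤ] B` is formally unramified over `Ω`. -/
theorem formallyUnramified_tensor_int :
    Algebra.FormallyUnramified Ω (Ω ⊗[ℤ] B) := by
  haveI : IsReduced (ℚ ⊗[ℤ] B) := isReduced_rat_tensor B
  haveI : Algebra.FormallyEtale ℚ (ℚ ⊗[ℤ] B) := formallyEtale_of_isReduced ℚ _
  haveI : Algebra.FormallyUnramified Ω (Ω ⊗[ℚ] (ℚ ⊗[ℤ] B)) := inferInstance
  exact Algebra.FormallyUnramified.of_equiv
    (Algebra.TensorProduct.cancelBaseChange ℤ ℚ Ω Ω B)

/-- the canonical map `Ω ⊗[ℤ] B → Ω ⊗[𝒪] T`. -/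
def tensorMap (π : B →+* T) : Ω ⊗[ℤ] B →ₐ[Ω] Ω ⊗[𝒪] T :=
  Algebra.TensorProduct.lift (Algebra.ofId Ω (Ω ⊗[𝒪] T))
    (((Algebra.TensorProduct.includeRight : T →ₐ[𝒪] Ω ⊗[𝒪] T).toRingHom.comp π).toIntAlgHom)
    (fun _ _ => Commute.all _ _)

theorem tensorMap_tmul (π : B →+* T) (x : Ω) (b : B) :
    tensorMap (𝒪 := 𝒪) (Ω := Ω) π (x ⊗ₜ b) = x ⊗ₜ[𝒪] π b := by
  unfold tensorMap
  rw [Algebra.TensorProduct.lift_tmul]
  change algebraMap Ω (Ω ⊗[𝒪] T) x * ((1 : Ω) ⊗ₜ[𝒪] π b) = _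
  rw [Algebra.TensorProduct.algebraMap_apply, Algebra.TensorProduct.tmul_mul_tmul, mul_one,
    one_mul]
  rfl

theorem tensorMap_surjective (π : B →+* T) (hπ : Algebra.adjoin 𝒪 (Set.range π) = ⊤) :
    Function.Surjective (tensorMap (𝒪 := 𝒪) (Ω := Ω) π) := by
  rw [← AlgHom.range_eq_top, eq_top_iff]
  -- `1 ⊗ t` lies in the range for every `t`
  have h1 : ∀ t : T, (1 : Ω) ⊗ₜ[𝒪] t ∈ (tensorMap (𝒪 := 𝒪) (Ω := Ω) π).range := by
    intro t
    have ht : t ∈ Algebra.adjoin 𝒪 (Set.range π) := by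
      rw [hπ]
      exact Algebra.mem_top
    induction ht using Algebra.adjoin_induction with
    | mem t ht =>
      obtain ⟨b, rfl⟩ := ht
      exact ⟨(1 : Ω) ⊗ₜ b, tensorMap_tmul π 1 b⟩
    | algebraMap c =>
      refine ⟨(algebraMap 𝒪 Ω c) ⊗ₜ (1 : B), ?_⟩
      change tensorMap (𝒪 := 𝒪) (Ω := Ω) π ((algebraMap 𝒪 Ω c) ⊗ₜ (1 : B)) = _
      rw [tensorMap_tmul, map_one, Algebra.algebraMap_eq_smul_one, Algebra.algebraMap_eq_smul_one,
        TensorProduct.smul_tmul]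
    | add t t' _ _ ht ht' =>
      rw [TensorProduct.tmul_add]
      exact Subalgebra.add_mem _ ht ht'
    | mul t t' _ _ ht ht' =>
      have : (1 : Ω) ⊗ₜ[𝒪] (t * t') = ((1 : Ω) ⊗ₜ[𝒪] t) * ((1 : Ω) ⊗ₜ[𝒪] t') := by
        rw [Algebra.TensorProduct.tmul_mul_tmul, one_mul]
      rw [this]
      exact Subalgebra.mul_mem _ ht ht'
  have h2 : ∀ z : Ω ⊗[𝒪] T, z ∈ (tensorMap (𝒪 := 𝒪) (Ω := Ω) π).range := by
    intro z
    induction z using TensorProduct.induction_on with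
    | zero => exact Subalgebra.zero_mem _
    | tmul x t =>
      have : x ⊗ₜ[𝒪] t = x • ((1 : Ω) ⊗ₜ[𝒪] t) := by
        rw [TensorProduct.smul_tmul', smul_eq_mul, mul_one]
      rw [this]
      exact Subalgebra.smul_mem _ (h1 t) x
    | add z z' hz hz' => exact Subalgebra.add_mem _ hz hz'
  intro z _
  exact h2 z

/-- `Ω ⊗[𝒪] T` is formally étale over `Ω`. -/
theorem formallyEtale_tensor (π : B →+* T) (hπ : Algebra.adjoin 𝒪 (Set.range π) = ⊤) :
    Algebra.FormallyEtale Ω (Ω ⊗[𝒪] T) := by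
  haveI : Algebra.FormallyUnramified Ω (Ω ⊗[ℤ] B) := formallyUnramified_tensor_int
  haveI : Algebra.FormallyUnramified Ω (Ω ⊗[𝒪] T) :=
    Algebra.FormallyUnramified.of_surjective (tensorMap π) (tensorMap_surjective π hπ)
  exact Algebra.FormallyEtale.of_formallyUnramified_of_field Ω _

end etale

section chars

variable {B : Type*} [CommRing B] [IsReduced B] [Module.Finite ℤ B]
  {𝒪 : Type*} [CommRing 𝒪] {T : Type uT} [CommRing T] [Algebra 𝒪 T] [Module.Finite 𝒪 T]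
  [Module.Free 𝒪 T]
  {Ω : Type*} [Field Ω] [CharZero Ω] [IsSepClosed Ω] [Algebra 𝒪 Ω]

/-- **enough characters**: jointly injective `𝒪`-algebra homs `T → Ω`. -/
theorem exists_jointly_injective_algHom (π : B →+* T)
    (hπ : Algebra.adjoin 𝒪 (Set.range π) = ⊤) (hinj : Function.Injective (algebraMap 𝒪 Ω)) :
    ∃ (κ : Type uT) (_ : Fintype κ) (ψ : κ → T →ₐ[𝒪] Ω), ∀ t : T, (∀ k, ψ k t = 0) → t = 0 := by
  classical
  let κ := Module.Free.ChooseBasisIndex 𝒪 T
  let bT : Module.Basis κ 𝒪 T := Module.Free.chooseBasis 𝒪 T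
  haveI : Algebra.FormallyEtale Ω (Ω ⊗[𝒪] T) := formallyEtale_tensor π hπ
  let b : Module.Basis κ Ω (Ω ⊗[𝒪] T) := Algebra.TensorProduct.basis Ω bT
  obtain ⟨χ, hχ⟩ := exists_characters_of_etale Ω (Ω ⊗[𝒪] T) b
  let ψ : κ → T →ₐ[𝒪] Ω := fun k =>
    ((χ k).restrictScalars 𝒪).comp (Algebra.TensorProduct.includeRight : T →ₐ[𝒪] Ω ⊗[𝒪] T)
  have hψb : ∀ i k, ψ i (bT k) = χ i (b k) := by
    intro i k
    change χ i ((1 : Ω) ⊗ₜ[𝒪] bT k) = χ i (b k)
    rw [Algebra.TensorProduct.basis_apply]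
  refine ⟨κ, inferInstance, ψ, fun t ht => ?_⟩
  -- coordinates
  set c : κ → 𝒪 := fun k => bT.repr t k with hc
  have ht' : t = ∑ k, c k • bT k := (bT.sum_repr t).symm
  have h1 : ∀ i, ∑ k, χ i (b k) * algebraMap 𝒪 Ω (c k) = 0 := by
    intro i
    have := ht i
    rw [ht', map_sum] at this
    rw [← this]
    refine Finset.sum_congr rfl fun k _ => ?_
    rw [map_smul, hψb, Algebra.smul_def, mul_comm]
  have h2 : (Matrix.of fun i k => χ i (b k)) *ᵥ (fun k => algebraMap 𝒪 Ω (c k)) = 0 := by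
    funext i
    exact h1 i
  have h3 := Matrix.eq_zero_of_mulVec_eq_zero hχ h2
  have h4 : ∀ k, c k = 0 := fun k => hinj ((congrFun h3 k).trans (map_zero _).symm)
  rw [ht']
  exact Finset.sum_eq_zero fun k _ => by rw [h4 k, zero_smul]

end chars

end Fermat.Agent.S32lib
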