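/-
S32lib / Chars (helper8): **enough characters into a complete DVR.**  In the situation of
`Chars/Etale` with `𝒪` a complete DVR of characteristic `0` with finite residue field: there are a
finite extension `O₁` of `𝒪` (complete DVR, finite over `𝒪`, ...) and finitely many jointly
injective `𝒪`-algebra homs `ψ k : T → O₁`.
-/
import Mathlib
import Fermat.Agent.S32lib.Chars.Etale
import Fermat.Agent.S29lib.Dvr.IntegralClosure

set_option autoImplicit false
set_option linter.unusedSectionVars false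
set_option linter.style.haveILetI false

noncomputable section

namespace Fermat.Agent.S32lib

open IsLocalRing Fermat.Agent.S29lib.Dvr

/-- **enough characters into a complete DVR.** -/
theorem exists_characters_dvr
    {B : Type} [CommRing B] [IsReduced B] [Module.Finite ℤ B]
    {𝒪 : Type} [CommRing 𝒪] [IsDomain 𝒪] [IsDiscreteValuationRing 𝒪] [CharZero 𝒪]
    [IsAdicComplete (maximalIdeal 𝒪) 𝒪] [Finite (ResidueField 𝒪)]
    {T : Type} [CommRing T] [Algebra 𝒪 T] [Module.Finite 𝒪 T] [Module.Free 𝒪 T]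
    (π : B →+* T) (hπ : Algebra.adjoin 𝒪 (Set.range π) = ⊤) :
    ∃ (κ : Type) (_ : Fintype κ) (O₁ : Type) (_ : CommRing O₁) (_ : IsDomain O₁)
      (_ : IsDiscreteValuationRing O₁) (_ : IsAdicComplete (maximalIdeal O₁) O₁)
      (_ : Finite (ResidueField O₁)) (_ : CharZero O₁) (_ : Algebra 𝒪 O₁)
      (_ : Module.Finite 𝒪 O₁) (_ : IsLocalHom (algebraMap 𝒪 O₁)),
      Function.Injective (algebraMap 𝒪 O₁) ∧
      ∃ ψ : κ → T →ₐ[𝒪] O₁, ∀ t : T, (∀ k, ψ k t = 0) → t = 0 := by
  classical
  let K := FractionRing 𝒪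
  let Ω := AlgebraicClosure K
  haveI : CharZero K := charZero_of_injective_algebraMap (IsFractionRing.injective 𝒪 K)
  haveI : CharZero Ω := charZero_of_injective_algebraMap (algebraMap K Ω).injective
  have hinjΩ : Function.Injective (algebraMap 𝒪 Ω) := by
    rw [IsScalarTower.algebraMap_eq 𝒪 K Ω]
    exact (algebraMap K Ω).injective.comp (IsFractionRing.injective 𝒪 K)
  obtain ⟨κ, hκ, ψz, hψz⟩ := exists_jointly_injective_algHom (Ω := Ω) π hπ hinjΩ
  -- a finite extension containing all the values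
  obtain ⟨s, hs⟩ := (Module.Finite.fg_top : (⊤ : Submodule 𝒪 T).FG)
  have hintT : ∀ t : T, IsIntegral 𝒪 t := fun t => Algebra.IsIntegral.isIntegral t
  let E : Set Ω := ⋃ k : κ, (ψz k) '' (s : Set T)
  have hEfin : E.Finite := Set.finite_iUnion fun k => (Finset.finite_toSet s).image _
  have hEint : ∀ x ∈ E, IsIntegral K x := by
    intro x hx
    obtain ⟨k, t, -, rfl⟩ := Set.mem_iUnion.mp hx
    exact ((hintT t).map (ψz k)).tower_top
  let K₁ : IntermediateField K Ω := IntermediateField.adjoin K E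
  haveI : Finite E := hEfin.to_subtype
  haveI : FiniteDimensional K K₁ := IntermediateField.finiteDimensional_adjoin hEint
  have hK₁ : ∀ k t, ψz k t ∈ K₁ := by
    intro k t
    have ht : t ∈ Submodule.span 𝒪 (s : Set T) := by
      rw [hs]
      exact Submodule.mem_top
    induction ht using Submodule.span_induction with
    | mem x hx =>
      exact IntermediateField.subset_adjoin K _ (Set.mem_iUnion.mpr ⟨k, x, hx, rfl⟩)
    | zero =>
      rw [map_zero]
      exact zero_mem _
    | add x y _ _ hx hy =>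
      rw [map_add]
      exact add_mem hx hy
    | smul c x _ hx =>
      rw [map_smul, Algebra.smul_def, IsScalarTower.algebraMap_apply 𝒪 K Ω]
      exact mul_mem (K₁.algebraMap_mem _) hx
  obtain ⟨hdom, hdvr, hcompl, hfin, hchar, hmf, hloc, hinj⟩ := exists_dvr_structure 𝒪 K K₁
  -- the characters with values in `O₁`
  haveI : IsScalarTower 𝒪 K₁ Ω := IsScalarTower.of_algebraMap_eq fun _ => rfl
  let ψ₁ : κ → T →+* K₁ := fun k => (ψz k : T →+* Ω).codRestrict K₁.toSubring (hK₁ k)
  have hψ₁int : ∀ k (t : T), IsIntegral 𝒪 (ψ₁ k t) := by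
    intro k t
    have h1 : IsIntegral 𝒪 (ψz k t) := (hintT t).map (ψz k)
    have h2 : (algebraMap K₁ Ω) (ψ₁ k t) = ψz k t := rfl
    rw [← h2] at h1
    exact (isIntegral_algHom_iff (IsScalarTower.toAlgHom 𝒪 K₁ Ω)
      (algebraMap K₁ Ω).injective).mp h1
  let ψ₂ : κ → T →+* OL 𝒪 K₁ := fun k => (ψ₁ k).codRestrict (OL 𝒪 K₁).toSubring (hψ₁int k)
  let ψ : κ → T →ₐ[𝒪] OL 𝒪 K₁ := fun k =>
    { ψ₂ k with
      commutes' := by
        intro c
        apply Subtype.ext
        apply Subtype.ext
        change ψz k (algebraMap 𝒪 T c) = algebraMap 𝒪 Ω c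
        exact (ψz k).commutes c }
  refine ⟨κ, hκ, OL 𝒪 K₁, inferInstance, hdom, hdvr, hcompl, hfin, hchar, inferInstance, hmf,
    hloc, hinj, ψ, fun t ht => hψz t fun k => ?_⟩
  have := congrArg (fun z : OL 𝒪 K₁ => ((z : K₁) : Ω)) (ht k)
  exact this

end Fermat.Agent.S32lib
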